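import Mathlib
import Fermat.Agent.S17.Pts.Galois
import Fermat.Agent.F3.OpenStab

/-!
# S17 / package H, seat PTS (helper19): places have open stabiliser and finite Galois orbit

* generic: `Pts.exists_sep` — distinct places are separated by a function;
* `Pts.place_open_stab F₀ h P` : every place of a base-changed Laurent function field over `ℚ̄` is
  fixed by all `σ` fixing a suitable number field `L`;
* `Pts.finite_orbit F₀ h P` : the Galois orbit of a place is finite;
* modular corollaries `galPlace_open_stab N P`, `finite_galPlace_orbit N P`.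
-/

set_option autoImplicit false

noncomputable section

open AlgebraicCurve ModularCurve IntermediateField

namespace Fermat.Agent.S17.Pts

open Fermat.Agent.RR

local notation "Qb" => AlgebraicClosure ℚ

section Generic

variable {K F : Type*} [Field K] [Field F] [Algebra K F]

/-- distinct places are separated by a function: regular at `P`, with a pole at `Q`. -/
theorem exists_sep (P Q : Place K F) (hne : Q ≠ P) : ∃ f : F, 0 ≤ P.ord f ∧ Q.ord f < 0 := by
  by_contra hcon
  have hcon : ∀ f : F, 0 ≤ P.ord f → 0 ≤ Q.ord f := fun f hf => by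
    by_contra hlt
    exact hcon ⟨f, hf, not_le.mp hlt⟩
  have hle : P.toValuationSubring ≤ Q.toValuationSubring := fun f hf =>
    Fermat.Agent.S24Res.mem_of_ord_nonneg Q (hcon f (Fermat.Agent.S24Res.ord_nonneg_of_mem P hf))
  have h1 := ValuationSubring.eq_of_le_of_ne_top _ hle Q.ne_top'
  exact hne (Place.ext h1.symm)

/-- a function factoring through a map to a finite type has finite range. -/
theorem finite_range_of_factors {α β γ : Type*} [Finite γ] (o : α → β) (r : α → γ)
    (hr : ∀ a b, r a = r b → o a = o b) : (Set.range o).Finite := by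
  classical
  have hfin : (Set.range fun x : Set.range r => o x.2.choose).Finite := Set.finite_range _
  refine hfin.subset ?_
  rintro _ ⟨a, rfl⟩
  refine ⟨⟨r a, a, rfl⟩, ?_⟩
  exact hr _ _ (Exists.choose_spec (⟨a, rfl⟩ : ∃ b, r b = r a))

end Generic

section BaseChange

variable (F₀ : IntermediateField ℚ (LaurentSeries ℚ))

/-- a field of definition of `f`. -/
def fieldOfDef (f : laurentBaseChange Qb F₀) : IntermediateField ℚ Qb :=
  (Fermat.Agent.F3.isDefinedOverNF_of_mem F₀ f.2).choose

theorem finiteDimensional_fieldOfDef (f : laurentBaseChange Qb F₀) :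
    FiniteDimensional ℚ (fieldOfDef F₀ f) :=
  (Fermat.Agent.F3.isDefinedOverNF_of_mem F₀ f.2).choose_spec.1

theorem smul_eq_of_fixes_fieldOfDef (f : laurentBaseChange Qb F₀) (σ : GQ)
    (hσ : ∀ a ∈ fieldOfDef F₀ f, σ a = a) : arithmeticGalois F₀ σ • f = f :=
  Subtype.ext ((coe_arithmeticGalois_smul F₀ σ f).trans
    ((Fermat.Agent.F3.isDefinedOverNF_of_mem F₀ f.2).choose_spec.2 σ hσ))

/-- every function is fixed by an open subgroup. -/
theorem function_open_stab (f : laurentBaseChange Qb F₀) :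
    ∃ L : IntermediateField ℚ Qb, FiniteDimensional ℚ L ∧
      ∀ σ : GQ, (∀ a ∈ L, σ a = a) → arithmeticGalois F₀ σ • f = f :=
  ⟨fieldOfDef F₀ f, finiteDimensional_fieldOfDef F₀ f, smul_eq_of_fixes_fieldOfDef F₀ f⟩

/-- auxiliary: the open stabiliser from a finite set of candidate places and separating
functions. -/
theorem place_open_stab_aux (P : Place Qb (laurentBaseChange Qb F₀))
    (t : laurentBaseChange Qb F₀) (ht : 0 < P.ord t)
    (Z : Finset (Place Qb (laurentBaseChange Qb F₀)))
    (hZ : ∀ Q : Place Qb (laurentBaseChange Qb F₀), 0 < Q.ord t → Q ∈ Z)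
    (sep : Place Qb (laurentBaseChange Qb F₀) → laurentBaseChange Qb F₀)
    (hsep : ∀ Q, Q ≠ P → 0 ≤ P.ord (sep Q) ∧ Q.ord (sep Q) < 0) :
    ∃ L : IntermediateField ℚ Qb, FiniteDimensional ℚ L ∧
      ∀ σ : GQ, (∀ a ∈ L, σ a = a) → arithmeticGalois F₀ σ • P = P := by
  have hfd₁ : FiniteDimensional ℚ
      (⨆ Q ∈ Z, fieldOfDef F₀ (sep Q) : IntermediateField ℚ Qb) :=
    IntermediateField.finiteDimensional_iSup_of_finset'
      (fun Q _ => finiteDimensional_fieldOfDef F₀ (sep Q))
  have hfd₀ : FiniteDimensional ℚ (fieldOfDef F₀ t) := finiteDimensional_fieldOfDef F₀ t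
  refine ⟨fieldOfDef F₀ t ⊔ ⨆ Q ∈ Z, fieldOfDef F₀ (sep Q),
    IntermediateField.finiteDimensional_sup _ _, fun σ hσ => ?_⟩
  have hgt : arithmeticGalois F₀ σ • t = t :=
    smul_eq_of_fixes_fieldOfDef F₀ t σ fun a ha => hσ a
      ((le_sup_left : fieldOfDef F₀ t ≤ fieldOfDef F₀ t ⊔ ⨆ Q ∈ Z, fieldOfDef F₀ (sep Q)) ha)
  have hmem : arithmeticGalois F₀ σ • P ∈ Z := by
    apply hZ
    rw [ord_smul_of_fixed _ P hgt]
    exact ht
  by_contra hne
  obtain ⟨h1, h2⟩ := hsep _ hne
  have hle : fieldOfDef F₀ (sep (arithmeticGalois F₀ σ • P))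
      ≤ fieldOfDef F₀ t ⊔ ⨆ Q ∈ Z, fieldOfDef F₀ (sep Q) :=
    le_trans (le_iSup₂_of_le (f := fun Q (_ : Q ∈ Z) => fieldOfDef F₀ (sep Q))
      (arithmeticGalois F₀ σ • P) hmem le_rfl) le_sup_right
  have hgf : arithmeticGalois F₀ σ • sep (arithmeticGalois F₀ σ • P)
      = sep (arithmeticGalois F₀ σ • P) :=
    smul_eq_of_fixes_fieldOfDef F₀ _ σ fun a ha => hσ a (hle ha)
  rw [ord_smul_of_fixed _ P hgf] at h2
  exact absurd h1 (not_le.mpr h2)

/-- **Open stabiliser**: every place is fixed by all `σ` fixing a suitable number field. -/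
theorem place_open_stab (h : IsRRField Qb (laurentBaseChange Qb F₀))
    (P : Place Qb (laurentBaseChange Qb F₀)) :
    ∃ L : IntermediateField ℚ Qb, FiniteDimensional ℚ L ∧
      ∀ σ : GQ, (∀ a ∈ L, σ a = a) → arithmeticGalois F₀ σ • P = P := by
  classical
  obtain ⟨t, ht⟩ := exists_uniformizer P
  have hsep : ∀ Q : Place Qb (laurentBaseChange Qb F₀), ∃ f : laurentBaseChange Qb F₀,
      Q ≠ P → 0 ≤ P.ord f ∧ Q.ord f < 0 := by
    intro Q
    by_cases hQ : Q = P
    · exact ⟨1, fun hne => absurd hQ hne⟩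
    · obtain ⟨f, hf⟩ := exists_sep P Q hQ
      exact ⟨f, fun _ => hf⟩
  choose sep hsep' using hsep
  exact place_open_stab_aux F₀ P t (by rw [ht]; exact one_pos) (finite_zeros h t).toFinset
    (fun Q hQ => (Set.Finite.mem_toFinset _).mpr hQ) sep hsep'

/-- **Finite orbits**: the Galois orbit of a place is finite. -/
theorem finite_orbit (h : IsRRField Qb (laurentBaseChange Qb F₀))
    (P : Place Qb (laurentBaseChange Qb F₀)) :
    (Set.range fun σ : GQ => arithmeticGalois F₀ σ • P).Finite := by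
  obtain ⟨L, hL, hfix⟩ := place_open_stab F₀ h P
  have := hL
  refine finite_range_of_factors (γ := L →ₐ[ℚ] Qb) _
    (fun σ : GQ => (σ : Qb →ₐ[ℚ] Qb).comp L.val) fun σ τ hστ => ?_
  have h1 : ∀ a ∈ L, (τ⁻¹ * σ) a = a := by
    intro a ha
    have h2 := DFunLike.congr_fun hστ ⟨a, ha⟩
    have h3 : σ a = τ a := h2
    show τ⁻¹ (σ a) = a
    rw [h3]
    exact τ.symm_apply_apply a
  have h4 := hfix _ h1
  rw [map_mul, mul_smul, map_inv, inv_smul_eq_iff] at h4
  exact h4

end BaseChange

section Modular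

variable (N : ℕ) [NeZero N]

/-- every place of `X₀(N)` over `ℚ̄` has open stabiliser. -/
theorem galPlace_open_stab (P : Place Qb (modularFunctionFieldBar N)) :
    ∃ L : IntermediateField ℚ Qb, FiniteDimensional ℚ L ∧
      ∀ σ : GQ, (∀ a ∈ L, σ a = a) → galPlace N σ P = P :=
  place_open_stab (modularFunctionFieldFull N) (Fermat.Agent.RRMod.isRRField_bar N) P

/-- every place of `X₀(N)` over `ℚ̄` has finite Galois orbit. -/
theorem finite_galPlace_orbit (P : Place Qb (modularFunctionFieldBar N)) :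
    (Set.range fun σ : GQ => galPlace N σ P).Finite :=
  finite_orbit (modularFunctionFieldFull N) (Fermat.Agent.RRMod.isRRField_bar N) P

omit [NeZero N] in
/-- every modular function over `ℚ̄` has open stabiliser. -/
theorem galFun_open_stab (f : modularFunctionFieldBar N) :
    ∃ L : IntermediateField ℚ Qb, FiniteDimensional ℚ L ∧
      ∀ σ : GQ, (∀ a ∈ L, σ a = a) → galFun N σ f = f :=
  function_open_stab (modularFunctionFieldFull N) f

end Modular

end Fermat.Agent.S17.Pts
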